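import Mathlib
import Fermat.Agent.MUL.S20.LevelOne
import Fermat.Agent.MUL.Orig.F3.DictC.ModularDefs
import Fermat.Agent.MUL.F3.DictC.Val
import Fermat.Agent.MUL.F3.DictC.Periods
import Fermat.Agent.MUL.Orig.F3.I2.DictInterface
import Fermat.Agent.MUL.F3.DictC.EmbF
import Fermat.Agent.MUL.F3.DictC.GlobalDatum
import Fermat.Agent.MUL.F3.DictC.InvariantsFinal
import Fermat.Agent.MUL.F3.DictC.ValInf
import Fermat.Agent.MUL.F3.DictC.GensExp
import Fermat.Agent.MUL.F3.Dict.PlacesHom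
import Fermat.Agent.MUL.F3.Dict.ConstHPD
import Fermat.Agent.MUL.F3.Dict.RatioBridge
import Fermat.Agent.MUL.S20.JInjective
import Fermat.Agent.MUL.S24.RHCounts
import Fermat.Agent.MUL.F3.TorsFin.Exists

section MergeWrap_F3_DictC_JLocal -- from F3/DictC/JLocal.lean

set_option autoImplicit false

noncomputable section

namespace Fermat.Agent.F3Dict.JLocal

open UpperHalfPlane ModularForm EisensteinSeries Filter Derivative
open scoped MatrixGroups ModularForm Manifold Derivative Topology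

local notation "Δ" => ModularForm.discriminant

/-- `jFun` as a plain function on the upper half plane. -/
def jH : ℍ → ℂ := fun τ => E₄ τ ^ 3 / Δ τ

theorem jFun_eq_jH (τ : ℍ) : jFun τ = jH τ := rfl

theorem jFun_apply (τ : ℍ) : jFun τ = E₄ τ ^ 3 / Δ τ := rfl

theorem jFun_mul_discriminant (τ : ℍ) : jFun τ * Δ τ = E₄ τ ^ 3 := by
  rw [jFun_apply, div_mul_cancel₀ _ (discriminant_ne_zero τ)]

theorem jFun_eq_zero_iff (τ : ℍ) : jFun τ = 0 ↔ E₄ τ = 0 := by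
  rw [jFun_apply, div_eq_zero_iff]
  simp [discriminant_ne_zero τ]

theorem jFun_sub_eq (τ : ℍ) : jFun τ - 1728 = E₆ τ ^ 2 / Δ τ := by
  rw [jFun_apply, eq_div_iff (discriminant_ne_zero τ), sub_mul,
    div_mul_cancel₀ _ (discriminant_ne_zero τ)]
  have := discriminant_eq_E₄_cube_sub_E₆_sq τ
  linear_combination (-1728 : ℂ) * this

theorem jFun_eq_1728_iff (τ : ℍ) : jFun τ = 1728 ↔ E₆ τ = 0 := by
  rw [← sub_eq_zero, jFun_sub_eq, div_eq_zero_iff]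
  simp [discriminant_ne_zero τ]

/-- a holomorphic function on the upper half plane is analytic (as a function on `ℂ`) at every
point of the upper half plane. -/
theorem analyticAt_comp_ofComplex {F : ℍ → ℂ} (hF : MDiff F) (τ : ℍ) :
    AnalyticAt ℂ (F ∘ ofComplex) (τ : ℂ) := by
  have h := UpperHalfPlane.mdifferentiable_iff.mp hF
  exact (h.analyticOnNhd isOpen_upperHalfPlaneSet) τ τ.im_pos

theorem mdiff_E₄ : MDiff (⇑E₄ : ℍ → ℂ) := E₄.holo'
theorem mdiff_E₆ : MDiff (⇑E₆ : ℍ → ℂ) := E₆.holo'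
theorem mdiff_discriminant : MDiff (Δ : ℍ → ℂ) := CuspForm.discriminant.holo'

theorem mdiff_jH : MDiff jH :=
  (mdiff_E₄.pow 3).div mdiff_discriminant discriminant_ne_zero

/-! ### The derivative of `j` -/

/-- `D j · Δ = - E₄² E₆`. -/
theorem D_jH_mul_discriminant (τ : ℍ) : D jH τ * Δ τ = - (E₄ τ ^ 2 * E₆ τ) := by
  have h1 : jH * Δ = (⇑E₄ : ℍ → ℂ) ^ 3 := by
    funext z
    exact jFun_mul_discriminant z
  have h2 : D (jH * Δ) τ = D ((⇑E₄ : ℍ → ℂ) ^ 3) τ := by rw [h1]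
  rw [normalizedDerivOfComplex_mul _ _ mdiff_jH mdiff_discriminant,
    normalizedDerivOfComplex_pow _ _ mdiff_E₄] at h2
  simp only [Pi.add_apply, Pi.mul_apply, Pi.pow_apply, Fermat.Agent.S20.ramanujan_E₄,
    Fermat.Agent.S20.ramanujan_discriminant, Pi.smul_apply, Pi.sub_apply, smul_eq_mul] at h2
  have h3 : jH τ * Δ τ = E₄ τ ^ 3 := jFun_mul_discriminant τ
  have h4 : ((3 : ℕ) : ℍ → ℂ) τ = 3 := rfl
  rw [h4] at h2
  norm_num at h2
  linear_combination h2 - E2 τ * h3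

/-- `D j ≠ 0` where `E₄ ≠ 0` and `E₆ ≠ 0`. -/
theorem D_jH_ne_zero {τ : ℍ} (h4 : E₄ τ ≠ 0) (h6 : E₆ τ ≠ 0) : D jH τ ≠ 0 := by
  intro h
  have := D_jH_mul_discriminant τ
  rw [h, zero_mul, eq_comm, neg_eq_zero, mul_eq_zero] at this
  rcases this with h' | h'
  · exact h4 (pow_eq_zero_iff (two_ne_zero) |>.mp h')
  · exact h6 h'

theorem deriv_ne_zero_of_D_ne_zero {F : ℍ → ℂ} {τ : ℍ} (h : D F τ ≠ 0) :
    deriv (F ∘ ofComplex) (τ : ℂ) ≠ 0 := by
  intro h'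
  apply h
  rw [normalizedDerivOfComplex, h', mul_zero]

/-- generic points: the order of `j - j(τ₀)` at `τ₀` is `1`. -/
theorem analyticOrderAt_jFun_sub (τ₀ : ℍ) (h0 : jFun τ₀ ≠ 0) (h1 : jFun τ₀ ≠ 1728) :
    analyticOrderAt (fun z : ℂ => jFun (ofComplex z) - jFun τ₀) (τ₀ : ℂ) = 1 := by
  have h4 : E₄ τ₀ ≠ 0 := fun h => h0 ((jFun_eq_zero_iff τ₀).mpr h)
  have h6 : E₆ τ₀ ≠ 0 := fun h => h1 ((jFun_eq_1728_iff τ₀).mpr h)
  have hd := deriv_ne_zero_of_D_ne_zero (D_jH_ne_zero h4 h6)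
  have ha := analyticAt_comp_ofComplex mdiff_jH τ₀
  have := ha.analyticOrderAt_sub_eq_one_of_deriv_ne_zero hd
  simp only [Function.comp_apply, ofComplex_apply] at this
  exact this


/-! ### The elliptic points -/

theorem analyticAt_E₄ (τ : ℍ) : AnalyticAt ℂ ((⇑E₄ : ℍ → ℂ) ∘ ofComplex) (τ : ℂ) :=
  analyticAt_comp_ofComplex mdiff_E₄ τ

theorem analyticAt_E₆ (τ : ℍ) : AnalyticAt ℂ ((⇑E₆ : ℍ → ℂ) ∘ ofComplex) (τ : ℂ) :=
  analyticAt_comp_ofComplex mdiff_E₆ τ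

theorem analyticAt_discriminant (τ : ℍ) : AnalyticAt ℂ ((Δ : ℍ → ℂ) ∘ ofComplex) (τ : ℂ) :=
  analyticAt_comp_ofComplex mdiff_discriminant τ

theorem analyticOrderAt_inv_discriminant (τ : ℍ) :
    analyticOrderAt (((Δ : ℍ → ℂ) ∘ ofComplex)⁻¹) (τ : ℂ) = 0 := by
  have hne : ((Δ : ℍ → ℂ) ∘ ofComplex) (τ : ℂ) ≠ 0 := by
    simp only [Function.comp_apply, ofComplex_apply]
    exact discriminant_ne_zero τ
  rw [((analyticAt_discriminant τ).inv hne).analyticOrderAt_eq_zero]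
  simpa using hne

/-- If `E₆ τ₀ = 0` (i.e. `j τ₀ = 1728`), the order of `j - 1728` at `τ₀` is `2`. -/
theorem analyticOrderAt_jFun_sub_of_E₆ (τ₀ : ℍ) (h : E₆ τ₀ = 0) :
    analyticOrderAt (fun z : ℂ => jFun (ofComplex z) - 1728) (τ₀ : ℂ) = 2 := by
  have hfun : (fun z : ℂ => jFun (ofComplex z) - 1728) =
      ((⇑E₆ : ℍ → ℂ) ∘ ofComplex) ^ 2 * (((Δ : ℍ → ℂ) ∘ ofComplex)⁻¹) := by
    funext z
    rw [jFun_sub_eq]
    simp [div_eq_mul_inv]
  have hne : ((Δ : ℍ → ℂ) ∘ ofComplex) (τ₀ : ℂ) ≠ 0 := by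
    simp only [Function.comp_apply, ofComplex_apply]
    exact discriminant_ne_zero τ₀
  have h1 : analyticOrderAt ((⇑E₆ : ℍ → ℂ) ∘ ofComplex) (τ₀ : ℂ) = 1 :=
    (analyticAt_E₆ τ₀).analyticOrderAt_eq_one_of_zero_deriv_ne_zero
      (by simpa using h) (Fermat.Agent.S20.deriv_E₆_ne_zero h)
  rw [hfun, analyticOrderAt_mul ((analyticAt_E₆ τ₀).pow 2) ((analyticAt_discriminant τ₀).inv hne),
    analyticOrderAt_pow (analyticAt_E₆ τ₀), h1, analyticOrderAt_inv_discriminant]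
  rfl

/-- If `E₄ τ₀ = 0` (i.e. `j τ₀ = 0`), the order of `j` at `τ₀` is `3`. -/
theorem analyticOrderAt_jFun_of_E₄ (τ₀ : ℍ) (h : E₄ τ₀ = 0) :
    analyticOrderAt (fun z : ℂ => jFun (ofComplex z)) (τ₀ : ℂ) = 3 := by
  have hfun : (fun z : ℂ => jFun (ofComplex z)) =
      ((⇑E₄ : ℍ → ℂ) ∘ ofComplex) ^ 3 * (((Δ : ℍ → ℂ) ∘ ofComplex)⁻¹) := by
    funext z
    rw [jFun_apply]
    simp [div_eq_mul_inv]
  have hne : ((Δ : ℍ → ℂ) ∘ ofComplex) (τ₀ : ℂ) ≠ 0 := by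
    simp only [Function.comp_apply, ofComplex_apply]
    exact discriminant_ne_zero τ₀
  have h1 : analyticOrderAt ((⇑E₄ : ℍ → ℂ) ∘ ofComplex) (τ₀ : ℂ) = 1 :=
    (analyticAt_E₄ τ₀).analyticOrderAt_eq_one_of_zero_deriv_ne_zero
      (by simpa using h) (Fermat.Agent.S20.deriv_E₄_ne_zero h)
  rw [hfun, analyticOrderAt_mul ((analyticAt_E₄ τ₀).pow 3) ((analyticAt_discriminant τ₀).inv hne),
    analyticOrderAt_pow (analyticAt_E₄ τ₀), h1, analyticOrderAt_inv_discriminant]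
  rfl

theorem jFun_I : jFun UpperHalfPlane.I = 1728 :=
  (jFun_eq_1728_iff _).mpr Fermat.Agent.S20.E₆_I

theorem jFun_ellRho : jFun Fermat.Agent.S20.ellRho = 0 :=
  (jFun_eq_zero_iff _).mpr Fermat.Agent.S20.E₄_ellRho

theorem ellRho_eq_rho : Fermat.Agent.S20.ellRho = UpperHalfPlane.ρ := rfl

theorem jFun_rho : jFun UpperHalfPlane.ρ = 0 := jFun_ellRho

/-- the order of `j - 1728` at `i` is `2`. -/
theorem analyticOrderAt_jFun_I :
    analyticOrderAt (fun z : ℂ => jFun (ofComplex z) - 1728) ((UpperHalfPlane.I : ℍ) : ℂ) = 2 :=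
  analyticOrderAt_jFun_sub_of_E₆ _ Fermat.Agent.S20.E₆_I

/-- the order of `j` at `ρ` is `3`. -/
theorem analyticOrderAt_jFun_rho :
    analyticOrderAt (fun z : ℂ => jFun (ofComplex z)) ((UpperHalfPlane.ρ : ℍ) : ℂ) = 3 :=
  analyticOrderAt_jFun_of_E₄ _ Fermat.Agent.S20.E₄_ellRho

theorem S_smul_I' : ModularGroup.S • UpperHalfPlane.I = UpperHalfPlane.I :=
  Fermat.Agent.S20.S_smul_I

theorem ST_smul_rho : (ModularGroup.S * ModularGroup.T) • UpperHalfPlane.ρ = UpperHalfPlane.ρ :=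
  Fermat.Agent.S20.ST_smul_ellRho


/-! ### Surjectivity of `j` -/

/-- A level one form of weight `12` which tends to `1` at `i∞` has a zero. -/
theorem exists_zero_of_isMF_twelve {G : ℍ → ℂ} (hG : Fermat.Agent.S20.IsMF 1 12 G)
    (hlim : Tendsto G atImInfty (𝓝 1)) : ∃ τ : ℍ, G τ = 0 := by
  by_contra hcon
  push Not at hcon
  have hslash : ∀ γ : SL(2, ℤ), (1 / G) ∣[(0 : ℤ) - 12] γ = 1 / G := by
    intro γ
    rw [div_slash_SL2 0 12 γ 1 G, hG.slash_one γ]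
    congr 1
    exact (Fermat.Agent.S20.IsMF.const (N := 1) (1 : ℂ)).slash_one γ
  have hinv : Fermat.Agent.S20.IsMF 1 ((0 : ℤ) - 12) (1 / G) :=
    { holo := by
        have h1 : MDiff (fun _ : ℍ => (1 : ℂ)) := mdifferentiable_const
        exact h1.div hG.holo hcon
      slash := fun γ _ => hslash γ
      bdd := by
        intro γ
        rw [hslash γ]
        have h1 : Tendsto (1 / G) atImInfty (𝓝 (1 / 1)) := by
          have := (tendsto_const_nhds (x := (1 : ℂ)) (f := atImInfty)).div hlim one_ne_zero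
          exact this
        exact h1.isBigO_one ℝ }
  have h0 := hinv.eq_zero_of_neg (by norm_num)
  have := congrFun h0 UpperHalfPlane.I
  simp only [Pi.div_apply, Pi.one_apply, Pi.zero_apply, one_div, inv_eq_zero] at this
  exact hcon _ this

/-- AN-B: the `j`-function takes every value. -/
theorem jFun_surjective (c : ℂ) : ∃ τ : ℍ, jFun τ = c := by
  have hG : Fermat.Agent.S20.IsMF 1 12 ((⇑E₄ : ℍ → ℂ) ^ 3 - c • (Δ : ℍ → ℂ)) := by
    have h4 := (Fermat.Agent.S20.isMF_E₄).pow_levelOne 3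
    exact (h4.cast (by norm_num)).sub (Fermat.Agent.S20.isMF_discriminant.smul c)
  have hlim : Tendsto ((⇑E₄ : ℍ → ℂ) ^ 3 - c • (Δ : ℍ → ℂ)) atImInfty (𝓝 1) := by
    have h4 := (Fermat.Agent.S20.tendsto_E₄_atImInfty).pow 3
    have hΔ : Tendsto (Δ : ℍ → ℂ) atImInfty (𝓝 0) := discriminant_isZeroAtImInfty
    have := h4.sub (hΔ.const_mul c)
    simp only [mul_zero, sub_zero, one_pow] at this
    exact this
  obtain ⟨τ, hτ⟩ := exists_zero_of_isMF_twelve hG hlim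
  refine ⟨τ, ?_⟩
  rw [jFun_apply, div_eq_iff (discriminant_ne_zero τ)]
  simp only [Pi.sub_apply, Pi.pow_apply, Pi.smul_apply, smul_eq_mul] at hτ
  linear_combination hτ

end Fermat.Agent.F3Dict.JLocal
end
end MergeWrap_F3_DictC_JLocal

section MergeWrap_F3_DictC_LocalDatum -- from F3/DictC/LocalDatum.lean

set_option autoImplicit false

noncomputable section

namespace Fermat.Agent.F3Dict

open UpperHalfPlane
open scoped MatrixGroups

/-- The underlying function of `j - c`. -/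
theorem coe_jAL_sub_algebraMap (M : ℕ) (c : Kc) (τ : ℍ) :
    ((jAL M - algebraMap Kc (AL M) c : AL M) : Fun) τ = jFun τ - iota c := rfl

theorem jLL_sub_algebraMap (M : ℕ) (c : Kc) :
    jLL M - algebraMap Kc (LL M) c =
      algebraMap (AL M) (LL M) (jAL M - algebraMap Kc (AL M) c) := by
  rw [map_sub, ← IsScalarTower.algebraMap_apply Kc (AL M) (LL M)]
  rfl

/-- The valuation of `j - c` at `τ₀` from the analytic order. -/
theorem valLL_jLL_sub (M : ℕ) (τ₀ : ℍ) (c : Kc) (k : ℕ)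
    (h : analyticOrderAt (fun z : ℂ => jFun (ofComplex z) - iota c) (τ₀ : ℂ) = (k : ℕ∞)) :
    valLL M τ₀ (jLL M - algebraMap Kc (LL M) c) = WithZero.exp (-(k : ℤ)) := by
  rw [jLL_sub_algebraMap, valLL_algebraMap, valAL_apply]
  have h' : ordAt τ₀ ((jAL M - algebraMap Kc (AL M) c : AL M) : Fun) = (k : ℕ∞) := h
  rw [h', expNeg_coe]

theorem iota_ofNat_1728 : iota (1728 : Kc) = (1728 : ℂ) := map_ofNat iota 1728

theorem exists_local_datum (M : ℕ) [NeZero M] (hM : 2 ≤ M) (c : Kc) :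
    ∃ (w : Valuation (LL M) (WithZero (Multiplicative ℤ))) (s : ℕ) (g : SL(2, ℤ)),
      (∀ a : Kc, a ≠ 0 → w (algebraMap Kc (LL M) a) = 1) ∧ 0 < s ∧
      w (jLL M - algebraMap Kc (LL M) c) = WithZero.exp (-(s : ℤ)) ∧
      (∀ x : LL M, w (g • x) = w x) ∧
      (∀ k : ℤ, (∀ x : LL M, (g ^ k) • x = x) ↔ (s : ℤ) ∣ k) ∧
      (c = 1728 → g = ModularGroup.S) ∧ (c = 0 → g = ModularGroup.S * ModularGroup.T) ∧
      (c ≠ 0 → c ≠ 1728 → s = 1) := by
  have h1728 : (1728 : Kc) ≠ 0 := by norm_num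
  by_cases hc1 : c = 1728
  · -- the elliptic point `i`
    subst hc1
    refine ⟨valLL M UpperHalfPlane.I, 2, ModularGroup.S,
      fun a ha => valLL_algebraMap_Kbar M _ ha, by norm_num, ?_,
      fun x => valLL_smul M _ JLocal.S_smul_I' x, ?_, fun _ => rfl,
      fun h => absurd h h1728, fun _ h => absurd rfl h⟩
    · refine valLL_jLL_sub M _ _ 2 ?_
      rw [iota_ofNat_1728]
      exact JLocal.analyticOrderAt_jFun_I
    · intro k
      rw [S_zpow_smul_eq_iff M hM k]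
      norm_num
  by_cases hc0 : c = 0
  · -- the elliptic point `ρ`
    subst hc0
    refine ⟨valLL M UpperHalfPlane.ρ, 3, ModularGroup.S * ModularGroup.T,
      fun a ha => valLL_algebraMap_Kbar M _ ha, by norm_num, ?_,
      fun x => valLL_smul M _ JLocal.ST_smul_rho x, ?_, fun h => absurd h hc1,
      fun _ => rfl, fun h _ => absurd rfl h⟩
    · refine valLL_jLL_sub M _ _ 3 ?_
      simp only [map_zero, sub_zero]
      exact JLocal.analyticOrderAt_jFun_rho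
    · intro k
      rw [ST_zpow_smul_eq_iff M hM k]
      norm_num
  · -- a generic point
    obtain ⟨τ₀, hτ₀⟩ := JLocal.jFun_surjective (iota c)
    have h0 : jFun τ₀ ≠ 0 := by
      rw [hτ₀]
      exact (map_ne_zero iota).mpr hc0
    have h1 : jFun τ₀ ≠ 1728 := by
      rw [hτ₀, ← iota_ofNat_1728]
      exact fun h => hc1 (iota.injective h)
    refine ⟨valLL M τ₀, 1, 1, fun a ha => valLL_algebraMap_Kbar M _ ha, by norm_num, ?_,
      fun x => by rw [one_smul], ?_, fun h => absurd h hc1, fun h => absurd h hc0,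
      fun _ _ => rfl⟩
    · refine valLL_jLL_sub M _ _ 1 ?_
      rw [← hτ₀]
      exact_mod_cast JLocal.analyticOrderAt_jFun_sub τ₀ h0 h1
    · intro k
      simp

end Fermat.Agent.F3Dict
end
end MergeWrap_F3_DictC_LocalDatum

section MergeWrap_F3_Dict_ValSmulC -- from F3/Dict/ValSmulC.lean

set_option autoImplicit false

noncomputable section

namespace Fermat.Agent.F3Places

open UpperHalfPlane Fermat.Agent.F3Dict
open scoped MatrixGroups Manifold Topology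

/-- one inequality: `ord_{γ⁻¹ τ₀} f ≤ ord_{τ₀} (γ • f)`. -/
theorem ordAtC_inv_smul_le_ordAtC_smul {f : Fun} (hf : IsHol f) (γ : SL(2, ℤ)) (τ₀ : ℍ) :
    ordAt (γ⁻¹ • τ₀) f ≤ ordAt τ₀ (γ • f) := by
  set m : ℂ → ℂ := fun z => ((γ⁻¹ • ofComplex z : ℍ) : ℂ) with hm
  have hm0 : m (τ₀ : ℂ) = ((γ⁻¹ • τ₀ : ℍ) : ℂ) := by
    simp only [hm, ofComplex_apply]
  have hma : AnalyticAt ℂ m (τ₀ : ℂ) := (isHol_coe_sl_smul γ⁻¹).analyticAt τ₀
  have hcomp : (fun z : ℂ => (γ • f) (ofComplex z)) = (fun z : ℂ => f (ofComplex z)) ∘ m := by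
    funext z
    simp only [Function.comp_apply, hm, ofComplex_apply, Fun.sl_smul_apply]
  have hfa : AnalyticAt ℂ (fun z : ℂ => f (ofComplex z)) (m (τ₀ : ℂ)) := by
    rw [hm0]; exact hf.analyticAt (γ⁻¹ • τ₀)
  have key := hfa.analyticOrderAt_comp hma
  rw [hm0] at key
  have hk : 1 ≤ analyticOrderAt (fun z => m z - ((γ⁻¹ • τ₀ : ℍ) : ℂ)) (τ₀ : ℂ) := by
    rw [Order.one_le_iff_ne_zero]
    have ha : AnalyticAt ℂ (fun z => m z - ((γ⁻¹ • τ₀ : ℍ) : ℂ)) (τ₀ : ℂ) :=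
      hma.sub analyticAt_const
    rw [ha.analyticOrderAt_ne_zero, hm0, sub_self]
  rw [ordAt, ordAt, hcomp, key]
  exact le_mul_of_one_le_right zero_le hk

/-- `ord_{τ₀} (γ • f) = ord_{γ⁻¹ τ₀} f` for holomorphic `f`. -/
theorem ordAtC_smul_eq {f : Fun} (hf : IsHol f) (γ : SL(2, ℤ)) (τ₀ : ℍ) :
    ordAt τ₀ (γ • f) = ordAt (γ⁻¹ • τ₀) f := by
  refine le_antisymm ?_ (ordAtC_inv_smul_le_ordAtC_smul hf γ τ₀)
  have h := ordAtC_inv_smul_le_ordAtC_smul (hf.sl_smul γ) γ⁻¹ (γ⁻¹ • τ₀)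
  rwa [inv_inv, smul_inv_smul, inv_smul_smul] at h

theorem valALC_smul_eq (M : ℕ) (γ : SL(2, ℤ)) (τ₀ : ℍ) (f : AL M) :
    valAL M τ₀ (γ • f) = valAL M (γ⁻¹ • τ₀) f := by
  rw [valAL_apply, valAL_apply, AL.coe_smul, ordAtC_smul_eq (isHol_of_mem_AL f.2) γ τ₀]

/-- **(C1)** the valuations `valLL M τ` are permuted by `SL(2,ℤ)`:
`valLL M τ (γ • x) = valLL M (γ⁻¹ • τ) x`. -/
theorem valLLC_smul_eq (M : ℕ) (γ : SL(2, ℤ)) (τ₀ : ℍ) (x : LL M) :
    valLL M τ₀ (γ • x) = valLL M (γ⁻¹ • τ₀) x := by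
  obtain ⟨a, b, hb, rfl⟩ := IsFractionRing.div_surjective (A := AL M) x
  rw [smul_div₀', LL.smul_algebraMap, LL.smul_algebraMap, map_div₀, map_div₀,
    valLL_algebraMap, valLL_algebraMap, valLL_algebraMap, valLL_algebraMap,
    valALC_smul_eq M γ τ₀, valALC_smul_eq M γ τ₀]

/-- variant: `valLL M (γ • τ) x = valLL M τ (γ⁻¹ • x)`. -/
theorem valLLC_smul_point (M : ℕ) (γ : SL(2, ℤ)) (τ₀ : ℍ) (x : LL M) :
    valLL M (γ • τ₀) x = valLL M τ₀ (γ⁻¹ • x) := by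
  rw [valLLC_smul_eq, inv_inv]

end Fermat.Agent.F3Places
end
end MergeWrap_F3_Dict_ValSmulC

section MergeWrap_F3_Dict_Witness -- from F3/Dict/Witness.lean

set_option autoImplicit false

noncomputable section

namespace Fermat.Agent.F3Places

open UpperHalfPlane
open scoped MatrixGroups

/-- the automorphy factor `c τ + d` of `γ : SL(2,ℤ)`, in the form used in `DictInterface`. -/
def cdFactor (γ : SL(2, ℤ)) (τ : ℍ) : ℂ :=
  ((γ 1 0 : ℤ) : ℂ) * (τ : ℂ) + ((γ 1 1 : ℤ) : ℂ)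

theorem cdFactor_eq_denom (γ : SL(2, ℤ)) (τ : ℍ) :
    cdFactor γ τ = denom (γ : GL (Fin 2) ℝ) τ := by
  rw [ModularGroup.denom_apply]
  rfl

theorem cdFactor_ne_zero (γ : SL(2, ℤ)) (τ : ℍ) : cdFactor γ τ ≠ 0 := by
  rw [cdFactor_eq_denom]
  exact denom_ne_zero (γ : GL (Fin 2) ℝ) τ

theorem coe_smul_eq_div (γ : SL(2, ℤ)) (τ : ℍ) :
    ((γ • τ : ℍ) : ℂ) = (((γ 0 0 : ℤ) : ℂ) * (τ : ℂ) + ((γ 0 1 : ℤ) : ℂ)) / cdFactor γ τ := by
  rw [UpperHalfPlane.coe_specialLinearGroup_apply]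
  simp [cdFactor]

theorem cdFactor_mul (γ γ' : SL(2, ℤ)) (τ : ℍ) :
    cdFactor (γ * γ') τ = cdFactor γ (γ' • τ) * cdFactor γ' τ := by
  have hne := cdFactor_ne_zero γ' τ
  have h1 : cdFactor γ (γ' • τ) = ((γ 1 0 : ℤ) : ℂ) * ((γ' • τ : ℍ) : ℂ) + ((γ 1 1 : ℤ) : ℂ) := rfl
  rw [h1, coe_smul_eq_div]
  have h2 : cdFactor (γ * γ') τ =
      (((γ 1 0 * γ' 0 0 + γ 1 1 * γ' 1 0 : ℤ) : ℂ)) * (τ : ℂ) +
        ((γ 1 0 * γ' 0 1 + γ 1 1 * γ' 1 1 : ℤ) : ℂ) := by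
    unfold cdFactor
    rw [Matrix.SpecialLinearGroup.coe_mul, Matrix.mul_apply, Matrix.mul_apply]
    simp [Fin.sum_univ_two]
  rw [h2]
  field_simp
  unfold cdFactor
  push_cast
  ring

theorem cdFactor_one (τ : ℍ) : cdFactor 1 τ = 1 := by
  simp [cdFactor]

theorem cdFactor_pow (g : SL(2, ℤ)) (τ : ℍ) (hg : g • τ = τ) (h : ℕ) :
    cdFactor (g ^ h) τ = cdFactor g τ ^ h := by
  induction h with
  | zero => simp [cdFactor_one]
  | succ n ih =>
    rw [pow_succ, cdFactor_mul, hg, ih, pow_succ]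

theorem pow_smul_eq (g : SL(2, ℤ)) (τ : ℍ) (hg : g • τ = τ) (h : ℕ) : (g ^ h) • τ = τ := by
  induction h with
  | zero => simp
  | succ n ih => rw [pow_succ, mul_smul, hg, ih]

/-- (W) the witness. -/
theorem witness (γ g : SL(2, ℤ)) (τ : ℍ) (h : ℕ) (hg : g • τ = τ) :
    (γ⁻¹ * g ^ h * γ) • (γ⁻¹ • τ) = γ⁻¹ • τ ∧
    cdFactor (γ⁻¹ * g ^ h * γ) (γ⁻¹ • τ) ^ 2 = (cdFactor g τ ^ 2) ^ h := by
  have hfix : (γ⁻¹ * g ^ h * γ) • (γ⁻¹ • τ) = γ⁻¹ • τ := by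
    rw [mul_smul, mul_smul, smul_inv_smul, pow_smul_eq g τ hg]
  refine ⟨hfix, ?_⟩
  have h1 : cdFactor (γ⁻¹ * γ) (γ⁻¹ • τ) = 1 := by
    rw [inv_mul_cancel, cdFactor_one]
  rw [cdFactor_mul, smul_inv_smul] at h1
  have h2 : cdFactor (γ⁻¹ * g ^ h * γ) (γ⁻¹ • τ) =
      cdFactor γ⁻¹ τ * cdFactor g τ ^ h * cdFactor γ (γ⁻¹ • τ) := by
    rw [cdFactor_mul, cdFactor_mul, smul_inv_smul, pow_smul_eq g τ hg, cdFactor_pow g τ hg]
  rw [h2, ← pow_mul, mul_comm 2 h, pow_mul]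
  have h3 : cdFactor γ⁻¹ τ * cdFactor g τ ^ h * cdFactor γ (γ⁻¹ • τ) =
      cdFactor g τ ^ h * (cdFactor γ⁻¹ τ * cdFactor γ (γ⁻¹ • τ)) := by ring
  rw [h3, h1, mul_one]

end Fermat.Agent.F3Places
end
end MergeWrap_F3_Dict_Witness

section MergeWrap_F3_Dict_LocalPoint -- from F3/Dict/LocalPoint.lean

set_option autoImplicit false

noncomputable section

namespace Fermat.Agent.F3Dict

open UpperHalfPlane ModularGroup
open scoped MatrixGroups

/-! ### The automorphy factor of `SL(2,ℤ)` -/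

/-- The automorphy factor `c τ + d` of `γ ∈ SL(2,ℤ)`, with explicit integer entries. -/
def autFac (γ : SL(2, ℤ)) (z : ℂ) : ℂ := ((γ 1 0 : ℤ) : ℂ) * z + ((γ 1 1 : ℤ) : ℂ)

theorem autFac_def (γ : SL(2, ℤ)) (z : ℂ) :
    autFac γ z = ((γ 1 0 : ℤ) : ℂ) * z + ((γ 1 1 : ℤ) : ℂ) := rfl

/-- `denom γ τ = c τ + d` with integer entries. -/
theorem denom_eq_autFac (γ : SL(2, ℤ)) (z : ℂ) :
    denom ((γ : SL(2, ℤ)) : GL (Fin 2) ℝ) z = autFac γ z := by
  simp [denom, autFac]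

/-- The cocycle relation for `SL(2,ℤ)`. -/
theorem autFac_mul (A B : SL(2, ℤ)) (z : ℍ) :
    autFac (A * B) z = autFac A ((B • z : ℍ) : ℂ) * autFac B z := by
  have h := denom_cocycle_σ ((A : SL(2, ℤ)) : GL (Fin 2) ℝ) ((B : SL(2, ℤ)) : GL (Fin 2) ℝ) z
  have hσ : σ ((B : SL(2, ℤ)) : GL (Fin 2) ℝ) = ContinuousAlgEquiv.refl ℝ ℂ := by
    rw [σ, if_pos (by simp)]
  rw [hσ] at h
  have hmul : (((A * B : SL(2, ℤ))) : GL (Fin 2) ℝ) =
      ((A : SL(2, ℤ)) : GL (Fin 2) ℝ) * ((B : SL(2, ℤ)) : GL (Fin 2) ℝ) := by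
    simp
  rw [← denom_eq_autFac, hmul, h, denom_eq_autFac, ← denom_eq_autFac B]
  rfl

theorem autFac_one (z : ℂ) : autFac (1 : SL(2, ℤ)) z = 1 := by
  simp [autFac]

/-- **(CJ), unsquared.**  The automorphy factor of a stabiliser element is invariant under
conjugation. -/
theorem autFac_conj (γ g : SL(2, ℤ)) (τ : ℍ) (h : g • τ = τ) :
    autFac (γ⁻¹ * g * γ) ((γ⁻¹ • τ : ℍ) : ℂ) = autFac g τ := by
  have h1 : autFac (γ⁻¹ * g * γ) ((γ⁻¹ • τ : ℍ) : ℂ) =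
      autFac γ⁻¹ τ * autFac g τ * autFac γ ((γ⁻¹ • τ : ℍ) : ℂ) := by
    rw [autFac_mul (γ⁻¹ * g) γ (γ⁻¹ • τ), smul_inv_smul, autFac_mul γ⁻¹ g τ, h]
  have h2 : autFac γ ((γ⁻¹ • τ : ℍ) : ℂ) * autFac γ⁻¹ τ = 1 := by
    rw [← autFac_mul γ γ⁻¹ τ, mul_inv_cancel, autFac_one]
  rw [h1]
  linear_combination (autFac g τ) * h2

theorem conj_smul_eq (γ g : SL(2, ℤ)) (τ : ℍ) (h : g • τ = τ) :
    (γ⁻¹ * g * γ) • (γ⁻¹ • τ) = γ⁻¹ • τ := by
  rw [mul_smul, smul_inv_smul, mul_smul, h]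

/-- **(CJ).**  With `γ₀ = γ⁻¹ g γ` and `τ' = γ⁻¹ τ`: `γ₀ τ' = τ'` and the squared automorphy
factors of `(γ₀, τ')` and `(g, τ)` agree. -/
theorem denom_conj_sq (γ g : SL(2, ℤ)) (τ : ℍ) (h : g • τ = τ) :
    (γ⁻¹ * g * γ) • (γ⁻¹ • τ) = γ⁻¹ • τ ∧
      ((((γ⁻¹ * g * γ) 1 0 : ℤ) : ℂ) * ((γ⁻¹ • τ : ℍ) : ℂ) + (((γ⁻¹ * g * γ) 1 1 : ℤ) : ℂ)) ^ 2 =
        (((g 1 0 : ℤ) : ℂ) * (τ : ℂ) + ((g 1 1 : ℤ) : ℂ)) ^ 2 := by
  refine ⟨conj_smul_eq γ g τ h, ?_⟩
  rw [← autFac_def, ← autFac_def, autFac_conj γ g τ h]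

/-! ### The local points -/

theorem isPrimitiveRoot_rho : IsPrimitiveRoot ((ρ : ℍ) : ℂ) 3 := by
  have h2 : ((ρ : ℍ) : ℂ) ^ 2 = -(ρ : ℂ) - 1 := UpperHalfPlane.ρ_sq
  have h3 : ((ρ : ℍ) : ℂ) ^ 3 = 1 := by
    have : ((ρ : ℍ) : ℂ) ^ 3 = (ρ : ℂ) ^ 2 * (ρ : ℂ) := by ring
    rw [this, h2]
    linear_combination -h2
  have h1 : ((ρ : ℍ) : ℂ) ≠ 1 := by
    intro h
    have := congrArg Complex.im h
    have him : (0 : ℝ) < ((ρ : ℍ) : ℂ).im := (ρ : ℍ).im_pos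
    rw [this] at him
    simp at him
  have ho : orderOf ((ρ : ℍ) : ℂ) = 3 := orderOf_eq_prime h3 h1
  have := IsPrimitiveRoot.orderOf ((ρ : ℍ) : ℂ)
  rwa [ho] at this

theorem S_apply_one_zero : (S : SL(2, ℤ)) 1 0 = 1 := by
  rw [ModularGroup.coe_S]; rfl

theorem S_apply_one_one : (S : SL(2, ℤ)) 1 1 = 0 := by
  rw [ModularGroup.coe_S]; rfl

theorem ST_apply_one_zero : ((S * T : SL(2, ℤ))) 1 0 = 1 := by
  rw [Matrix.SpecialLinearGroup.coe_mul, ModularGroup.coe_S, ModularGroup.coe_T]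
  simp [Matrix.mul_apply, Fin.sum_univ_two]

theorem ST_apply_one_one : ((S * T : SL(2, ℤ))) 1 1 = 1 := by
  rw [Matrix.SpecialLinearGroup.coe_mul, ModularGroup.coe_S, ModularGroup.coe_T]
  simp [Matrix.mul_apply, Fin.sum_univ_two]

/-- **(LD).**  Explicit local point above `j = c`. -/
theorem exists_local_point (M : ℕ) [NeZero M] (hM : 2 ≤ M) (c : ℂ) :
    ∃ (τ : ℍ) (s : ℕ) (g : SL(2, ℤ)), jFun τ = c ∧ 0 < s ∧
      valLL M τ (jLL M - algebraMap ℂ (LL M) c) = WithZero.exp (-(s : ℤ)) ∧ g • τ = τ ∧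
      (s = 1 ∨ s = 2 ∨ s = 3) ∧
      (∀ k : ℤ, (∀ x : LL M, (g ^ k) • x = x) ↔ (s : ℤ) ∣ k) ∧
      IsPrimitiveRoot ((((g 1 0 : ℤ) : ℂ) * (τ : ℂ) + ((g 1 1 : ℤ) : ℂ)) ^ 2) s := by
  by_cases hc1 : c = 1728
  · -- the elliptic point `i`
    subst hc1
    refine ⟨UpperHalfPlane.I, 2, ModularGroup.S, JLocal.jFun_I, by norm_num, ?_,
      JLocal.S_smul_I', Or.inr (Or.inl rfl), ?_, ?_⟩
    · refine valLL_jLL_sub M _ _ 2 ?_
      rw [iota_ofNat_1728]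
      exact JLocal.analyticOrderAt_jFun_I
    · intro k
      rw [S_zpow_smul_eq_iff M hM k]
      norm_num
    · rw [S_apply_one_zero, S_apply_one_one]
      have : (((1 : ℤ) : ℂ) * ((UpperHalfPlane.I : ℍ) : ℂ) + ((0 : ℤ) : ℂ)) ^ 2 = -1 := by
        simp
      rw [this]
      exact IsPrimitiveRoot.neg_one 0 (by norm_num)
  by_cases hc0 : c = 0
  · -- the elliptic point `ρ`
    subst hc0
    refine ⟨UpperHalfPlane.ρ, 3, ModularGroup.S * ModularGroup.T, JLocal.jFun_rho, by norm_num,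
      ?_, JLocal.ST_smul_rho, Or.inr (Or.inr rfl), ?_, ?_⟩
    · refine valLL_jLL_sub M _ _ 3 ?_
      simp only [map_zero, sub_zero]
      exact JLocal.analyticOrderAt_jFun_rho
    · intro k
      rw [ST_zpow_smul_eq_iff M hM k]
      norm_num
    · rw [ST_apply_one_zero, ST_apply_one_one]
      have h2 : ((ρ : ℍ) : ℂ) ^ 2 = -(ρ : ℂ) - 1 := UpperHalfPlane.ρ_sq
      have : (((1 : ℤ) : ℂ) * ((UpperHalfPlane.ρ : ℍ) : ℂ) + ((1 : ℤ) : ℂ)) ^ 2 =
          ((ρ : ℍ) : ℂ) := by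
        push_cast
        linear_combination h2
      rw [this]
      exact isPrimitiveRoot_rho
  · -- a generic point
    obtain ⟨τ₀, hτ₀⟩ := JLocal.jFun_surjective c
    have h0 : jFun τ₀ ≠ 0 := by
      rw [hτ₀]
      exact hc0
    have h1 : jFun τ₀ ≠ 1728 := by
      rw [hτ₀]
      exact hc1
    refine ⟨τ₀, 1, 1, hτ₀, by norm_num, ?_, one_smul _ _, Or.inl rfl, ?_, ?_⟩
    · refine valLL_jLL_sub M _ _ 1 ?_
      rw [← hτ₀]
      exact_mod_cast JLocal.analyticOrderAt_jFun_sub τ₀ h0 h1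
    · intro k
      simp
    · have : ((((1 : SL(2, ℤ)) 1 0 : ℤ) : ℂ) * (τ₀ : ℂ) + (((1 : SL(2, ℤ)) 1 1 : ℤ) : ℂ)) ^ 2
          = 1 := by
        simp
      rw [this]
      exact IsPrimitiveRoot.one

end Fermat.Agent.F3Dict
end
end MergeWrap_F3_Dict_LocalPoint

section MergeWrap_F3_Dict_ChartsC -- from F3/Dict/ChartsC.lean

set_option autoImplicit false
set_option linter.style.haveILetI false
set_option linter.unusedSectionVars false

noncomputable section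

namespace Fermat.Agent.F3Charts

open UpperHalfPlane CongruenceSubgroup AlgebraicCurve
open scoped MatrixGroups ModularForm
open Fermat.Agent.F3Dict Fermat.Agent.F3Places

/-! ### the concrete datum -/

/-- the embedding `FC N → LL (2N)`. -/
def phiC (N : ℕ) [NeZero N] : ↥(F3I2.FC N) →ₐ[ℂ] LL (2 * N) :=
  haveI : NeZero (2 * N) := ⟨Nat.mul_ne_zero two_ne_zero (NeZero.ne N)⟩
  EmbFHom.embHom N (2 * N) (Dvd.intro_left 2 rfl)

theorem phiC_jBar (N : ℕ) [NeZero N] : phiC N (jBar N) = jLL (2 * N) :=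
  haveI : NeZero (2 * N) := ⟨Nat.mul_ne_zero two_ne_zero (NeZero.ne N)⟩
  EmbFHom.embHom_jq N (2 * N) (Dvd.intro_left 2 rfl) (jBar N) rfl

theorem mem_Gamma0_iff_phiC (N : ℕ) [NeZero N] (γ : SL(2, ℤ)) :
    γ ∈ Gamma0 N ↔ ∀ x : ↥(F3I2.FC N), γ • phiC N x = phiC N x := by
  haveI : NeZero (2 * N) := ⟨Nat.mul_ne_zero two_ne_zero (NeZero.ne N)⟩
  have hNM : N ∣ 2 * N := Dvd.intro_left 2 rfl
  rw [mem_Gamma0_iff_forall_smul_jd N γ]
  constructor
  · intro h x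
    exact EmbFHom.smul_eq_of_mem_genField N (2 * N) hNM γ h (EmbFHom.embHom_mem N (2 * N) hNM x)
  · intro h d hdne hd
    obtain ⟨x, hx⟩ := EmbFHom.exists_embHom_eq N (2 * N) hNM
      (EmbFHom.jdLL_mem_genField N (2 * N) d hNM hd)
    have h1 := h x
    have hx' : phiC N x = EmbFHom.jdLL (2 * N) d (hd.trans hNM) := hx
    rw [hx'] at h1
    exact (EmbFHom.smul_jdLL_eq_iff (2 * N) d (hd.trans hNM) γ).mp h1

/-- the valuation of `LL M` at the cusp `∞` (order in `u = q^{1/M}`). -/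
def winfC (M : ℕ) [NeZero M] : Valuation (LL M) (WithZero (Multiplicative ℤ)) :=
  valInfLL (M := M) (fun _ hf => exists_hasExp_of_mem_gens M hf)

theorem winfC_algebraMap (M : ℕ) [NeZero M] {a : ℂ} (ha : a ≠ 0) :
    winfC M (algebraMap ℂ (LL M) a) = 1 :=
  valInfLL_algebraMap_Kbar _ ha

theorem winfC_T_smul (M : ℕ) [NeZero M] (x : LL M) :
    winfC M (ModularGroup.T • x) = winfC M x :=
  valInfLL_T_smul _ x

theorem winfC_jLL (M : ℕ) [NeZero M] : winfC M (jLL M) = WithZero.exp (M : ℤ) := by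
  have h := hasExp_jd M 1 (one_dvd M)
  have h1 : jd 1 = jFun := by
    ext τ
    show jFun (scale 1 τ) = jFun τ
    congr 1
    ext
    simp
  rw [h1, ModularCurve.qExpand_congr (mul_one M)] at h
  have hj' : HasExp M ((jAL M : AL M) : Fun)
      (ModularCurve.qExpand Kc M (ModularCurve.jqModC Kc)) := h
  unfold winfC
  rw [jLL, valInfLL_algebraMap, valInfAL_apply, expAL_eq _ hj',
    laurent_valuation_qExpand_jqModC]

/-- the ratio bridge at the cusps: the statement of (R∞). -/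
def RatioCusp (N : ℕ) [NeZero N] : Prop :=
  haveI : NeZero (2 * N) := ⟨Nat.mul_ne_zero two_ne_zero (NeZero.ne N)⟩
  ∀ (γ : SL(2, ℤ)) (w : ℤ) (A B : ModularForm (Gamma0 N) w) (x : ↥(F3I2.FC N)), A ≠ 0 →
    F3I2.IsRatio N x A B →
    -WithZero.log (winfC (2 * N) (γ • phiC N x)) =
      F3I2.ordInf (2 * N) (⇑A ∣[w] γ⁻¹) - F3I2.ordInf (2 * N) (⇑B ∣[w] γ⁻¹)

/-! ### auxiliary facts -/

theorem ne_zero_of_isRatio (N : ℕ) [NeZero N] {w : ℤ} (A B : ModularForm (Gamma0 N) w)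
    (x : ↥(F3I2.FC N)) (hA : A ≠ 0) (h : F3I2.IsRatio N x A B) : x ≠ 0 := by
  rintro rfl
  apply hA
  have h2 : F3I2.qLaurent A = 0 := by
    have := h.2
    simpa using this
  have hA1 := Fermat.Agent.F3Ratio.hasExp_mfFun 1 A
  rw [h2, map_zero] at hA1
  have h0 : HasExp 1 (0 : Fun) 0 := by
    have := HasExp.algebraMap 1 (0 : Kc)
    simpa using this
  have := hA1.fun_unique h0
  exact (Fermat.Agent.F3Ratio.mfFun_eq_zero_iff A).mp this

theorem exists_smul_eq_of_jFun_eq (τ τ' : ℍ) (h : jFun τ = jFun τ') :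
    ∃ γ : SL(2, ℤ), γ • τ = τ' := by
  apply Fermat.Agent.S20.exists_smul_eq_of_j_eq
  have h1 : ModularForm.discriminant τ ≠ 0 := ModularForm.discriminant_ne_zero τ
  have h2 : ModularForm.discriminant τ' ≠ 0 := ModularForm.discriminant_ne_zero τ'
  have h3 : ModularForm.E₄ τ ^ 3 / ModularForm.discriminant τ =
      ModularForm.E₄ τ' ^ 3 / ModularForm.discriminant τ' := h
  field_simp at h3
  linear_combination h3

/-! ### charts -/

set_option maxHeartbeats 1000000 in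
set_option synthInstance.maxHeartbeats 400000 in
/-- a chart at the point `γ⁻¹ τc` from the abstract data of one fibre. -/
theorem chart_of_fibre (N : ℕ) [NeZero N] (τc : ℍ) (s : ℕ) (g : SL(2, ℤ))
    (hgτ : g • τc = τc) (hs : 0 < s) (hprim : IsPrimitiveRoot (cdFactor g τc ^ 2) s)
    (γ : SL(2, ℤ)) (e h : ℕ) (he : 0 < e) (hhe : h * e = s)
    (hmem : γ⁻¹ * g ^ h * γ ∈ Gamma0 N)
    (v : Place ℂ ↥(F3I2.FC N))
    (hve : ∀ x : ↥(F3I2.FC N), x ≠ 0 →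
      -WithZero.log (valLL (2 * N) τc (γ • phiC N x)) = (e : ℤ) * v.ord x) :
    F3I2.IsChartAt N v (γ⁻¹ • τc) e := by
  haveI : NeZero (2 * N) := ⟨Nat.mul_ne_zero two_ne_zero (NeZero.ne N)⟩
  obtain ⟨hw1, hw2⟩ := witness γ g τc h hgτ
  refine ⟨he, ⟨γ⁻¹ * g ^ h * γ, hmem, hw1, ?_⟩, ?_⟩
  · show IsPrimitiveRoot (cdFactor (γ⁻¹ * g ^ h * γ) (γ⁻¹ • τc) ^ 2) e
    rw [hw2]
    exact hprim.pow hs hhe.symm
  · intro w A B x hA hr
    have hx0 := ne_zero_of_isRatio N A B x hA hr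
    rw [← hve x hx0, valLLC_smul_eq]
    exact Fermat.Agent.F3Ratio.neg_log_valLL_embHom (Dvd.intro_left 2 rfl) x A B hA hr (γ⁻¹ • τc)

set_option maxHeartbeats 2000000 in
set_option synthInstance.maxHeartbeats 400000 in
/-- **(D2b)** points → places: every `τ ∈ ℍ` is the centre of a chart of a place of `FC N`. -/
theorem dictD2b (N : ℕ) [NeZero N] : F3I2.DictD2b N := by
  haveI : NeZero (2 * N) := ⟨Nat.mul_ne_zero two_ne_zero (NeZero.ne N)⟩
  have h2 : 2 ≤ 2 * N := by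
    have := Nat.pos_of_ne_zero (NeZero.ne N)
    omega
  intro τ
  obtain ⟨τc, s, g, hj, hs, hval, hgτ, -, hgs, hprim⟩ := exists_local_point (2 * N) h2 (jFun τ)
  obtain ⟨γ', hγ'⟩ := exists_smul_eq_of_jFun_eq τc τ hj
  obtain ⟨ht1, ht2, ht3, ht4⟩ := fibre_hyps_sub (phiC N) (jBar N) (jLL (2 * N)) (phiC_jBar N)
    (transcendental_jBar_aux N) (smul_jLL (2 * N))
    (Fermat.Agent.F3DictInv.mem_adjoin_jLL_of_invariant' (2 * N)) (jFun τ)
  obtain ⟨v, e, h, -, he, -, hhe, hmem, hve⟩ := exists_place_of_point_fibre_hom (phiC N)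
    (jBar N - algebraMap ℂ ↥(F3I2.FC N) (jFun τ)) ht1 (exists_finiteIndex_fixing (2 * N)) ht2 ht3
    (Gamma0 N) (mem_Gamma0_iff_phiC N) (valLL (2 * N) τc) s g
    (fun a ha => valLL_algebraMap_Kbar (2 * N) τc ha) hs (by rw [ht4]; exact hval)
    (fun x => valLL_smul (2 * N) g hgτ x) hgs γ'⁻¹
  have hchart := chart_of_fibre N τc s g hgτ hs hprim γ'⁻¹ e h he hhe hmem v hve
  rw [inv_inv, hγ'] at hchart
  exact ⟨v, e, hchart⟩

set_option maxHeartbeats 2000000 in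
set_option synthInstance.maxHeartbeats 400000 in
/-- **(D2a)** places → points: every place of `FC N` has a chart at a point of `ℍ` or at a cusp,
given the ratio bridge at the cusps (R∞). -/
theorem dictD2a_of (N : ℕ) [NeZero N] (hRinf : RatioCusp N) : F3I2.DictD2a N := by
  haveI : NeZero (2 * N) := ⟨Nat.mul_ne_zero two_ne_zero (NeZero.ne N)⟩
  have h2 : 2 ≤ 2 * N := by
    have := Nat.pos_of_ne_zero (NeZero.ne N)
    omega
  intro v
  rcases exists_ord_pos_or_neg_of_hom (phiC N) (jBar N) (jLL (2 * N)) (phiC_jBar N)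
    (transcendental_jBar_aux N) (exists_finiteIndex_fixing (2 * N)) (smul_jLL (2 * N))
    (Fermat.Agent.F3DictInv.mem_adjoin_jLL_of_invariant' (2 * N)) v with ⟨c, hc⟩ | hinf
  · left
    obtain ⟨τc, s, g, -, hs, hval, hgτ, -, hgs, hprim⟩ := exists_local_point (2 * N) h2 c
    obtain ⟨ht1, ht2, ht3, ht4⟩ := fibre_hyps_sub (phiC N) (jBar N) (jLL (2 * N)) (phiC_jBar N)
      (transcendental_jBar_aux N) (smul_jLL (2 * N))
      (Fermat.Agent.F3DictInv.mem_adjoin_jLL_of_invariant' (2 * N)) c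
    obtain ⟨γ, e, h, he, -, hhe, hmem, hve⟩ := exists_point_of_place_fibre_hom (phiC N)
      (jBar N - algebraMap ℂ ↥(F3I2.FC N) c) ht1 (exists_finiteIndex_fixing (2 * N)) ht2 ht3
      (Gamma0 N) (mem_Gamma0_iff_phiC N) (valLL (2 * N) τc) s g
      (fun a ha => valLL_algebraMap_Kbar (2 * N) τc ha) hs (by rw [ht4]; exact hval)
      (fun x => valLL_smul (2 * N) g hgτ x) hgs v hc
    exact ⟨γ⁻¹ • τc, e, chart_of_fibre N τc s g hgτ hs hprim γ e h he hhe hmem v hve⟩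
  · right
    obtain ⟨ht1, ht2, ht3, ht4⟩ := fibre_hyps_inv (phiC N) (jBar N) (jLL (2 * N)) (phiC_jBar N)
      (transcendental_jBar_aux N) (smul_jLL (2 * N))
      (Fermat.Agent.F3DictInv.mem_adjoin_jLL_of_invariant' (2 * N))
    have hM0 : 0 < 2 * N := by omega
    obtain ⟨γ, e, h, he, hh, hhe, hmem, hve⟩ := exists_point_of_place_fibre_hom (phiC N)
      (jBar N)⁻¹ ht1 (exists_finiteIndex_fixing (2 * N)) ht2 ht3
      (Gamma0 N) (mem_Gamma0_iff_phiC N) (winfC (2 * N)) (2 * N) ModularGroup.T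
      (fun a ha => winfC_algebraMap (2 * N) ha) hM0
      (by rw [ht4, map_inv₀, winfC_jLL, ← WithZero.exp_neg])
      (fun x => winfC_T_smul (2 * N) x) (T_zpow_smul_eq_iff (2 * N)) v hinf
    refine ⟨γ⁻¹, h, e, hh, he, ?_, ?_⟩
    · rw [inv_inv]
      exact hmem
    · intro w A B x hA hr
      have hx0 := ne_zero_of_isRatio N A B x hA hr
      rw [← hve x hx0, hhe]
      exact hRinf γ w A B x hA hr

/-! ### (HPD) and (CONST) -/

/-- **(HPD)** principal divisors of `FC N`. -/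
theorem dictHPD (N : ℕ) [NeZero N] : F3I2.DictHPD N :=
  Fermat.Agent.S24Diff.hasPrincipalDivisors (isFunctionFieldOver_jBar N)

/-- **(CONST)** an element of `FC N` without zeros and poles is constant. -/
theorem dictConst (N : ℕ) [NeZero N] : F3I2.DictConst N := fun x _ hv =>
  exists_algebraMap_eq_of_forall_ord_eq_zero (isFunctionFieldOver_jBar N) x hv

end Fermat.Agent.F3Charts
end
end MergeWrap_F3_Dict_ChartsC
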