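import Mathlib
import Fermat.Agent.MUL.F3.Dict.RatioBridge
import Fermat.Agent.MUL.F3.DictC.ValInf
import Fermat.Agent.MUL.F3.DictC.EmbFHom
import Fermat.Agent.MUL.Orig.S22.GammaFG

section MergeWrap_F3_Dict_RatioCusp -- from F3/Dict/RatioCusp.lean

set_option autoImplicit false

noncomputable section

namespace Fermat.Agent.F3RatioCusp

open UpperHalfPlane CongruenceSubgroup Fermat.Agent.F3Dict Fermat.Agent.F3Ratio
open Matrix.SpecialLinearGroup ConjAct
open scoped MatrixGroups ModularForm Pointwise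

/-- `M` is a strict period of every `SL(2,ℤ)`-conjugate of `Γ₀(N)`, if `N ∣ M`. -/
theorem natCast_mem_strictPeriods_conj {N M : ℕ} (hNM : N ∣ M) (γ : SL(2, ℤ)) :
    (M : ℝ) ∈ (ConjAct.toConjAct (mapGL ℝ γ)⁻¹ •
      ((Gamma0 N).map (mapGL ℝ) : Subgroup (GL (Fin 2) ℝ))).strictPeriods := by
  have hT : ModularGroup.T ^ (M : ℤ) ∈ Gamma N := by
    simpa using CongruenceSubgroup.ModularGroup_T_pow_mem_Gamma (N : ℤ) (M : ℤ)
      (by exact_mod_cast hNM)
  have hconj : γ * ModularGroup.T ^ (M : ℤ) * γ⁻¹ ∈ Gamma0 N := by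
    have h := (CongruenceSubgroup.Gamma_normal N).conj_mem _ hT γ
    rw [Gamma0_mem]
    exact (Gamma_mem.mp h).2.2.1
  have hU : ∀ m : ℤ, Matrix.GeneralLinearGroup.upperRightHom ((m : ℝ)) =
      mapGL ℝ (ModularGroup.T ^ m) := by
    intro m
    simp only [Units.ext_iff, mapGL_coe_matrix, map_apply_coe]
    ext i j
    fin_cases i <;> fin_cases j <;> simp [ModularGroup.coe_T_zpow]
  have hU' := hU (M : ℤ)
  rw [Int.cast_natCast] at hU'
  rw [Subgroup.mem_strictPeriods_iff, Subgroup.mem_pointwise_smul_iff_inv_smul_mem,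
    ← toConjAct_inv, inv_inv, toConjAct_smul, hU', ← map_inv, ← map_mul, ← map_mul]
  exact Subgroup.mem_map_of_mem _ hconj


/-- The translate `A ∣[w] γ` of a modular form, as an element of `Fun`. -/
def slFun {N : ℕ} {w : ℤ} (A : ModularForm (Gamma0 N) w) (γ : SL(2, ℤ)) : Fun :=
  fun τ => ((⇑A ∣[w] γ : ℍ → ℂ)) τ

theorem slFun_eq {N : ℕ} {w : ℤ} (A : ModularForm (Gamma0 N) w) (γ : SL(2, ℤ)) (τ : ℍ) :
    slFun A γ τ = ((⇑A ∣[w] γ : ℍ → ℂ)) τ := rfl

theorem slFun_apply {N : ℕ} {w : ℤ} (A : ModularForm (Gamma0 N) w) (γ : SL(2, ℤ)) (τ : ℍ) :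
    slFun A γ τ = A (γ • τ) * (UpperHalfPlane.denom γ τ) ^ (-w) := by
  rw [slFun_eq, ModularForm.SL_slash_apply]

/-- The `u_M`-expansion of a translate `A ∣[w] γ` of a modular form on `Γ₀(N)`, `N ∣ M`. -/
theorem hasPExp_slFun {N M : ℕ} [NeZero M] (hNM : N ∣ M) {w : ℤ}
    (A : ModularForm (Gamma0 N) w) (γ : SL(2, ℤ)) :
    HasPExp M (slFun A γ) (UpperHalfPlane.qExpansion (M : ℝ) (⇑A ∣[w] γ)) := by
  intro τ
  have hΓ := natCast_mem_strictPeriods_conj hNM γ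
  have hMpos : (0 : ℝ) < M := Nat.cast_pos.mpr (Nat.pos_of_ne_zero (NeZero.ne M))
  have : Fact (IsCusp OnePoint.infty (ConjAct.toConjAct (mapGL ℝ γ)⁻¹ •
      ((Gamma0 N).map (mapGL ℝ) : Subgroup (GL (Fin 2) ℝ)))) :=
    ⟨Subgroup.isCusp_of_mem_strictPeriods hMpos hΓ⟩
  have h := ModularForm.hasSum_qExpansion (f := ModularForm.translate A (mapGL ℝ γ)) hMpos hΓ τ
  rw [ModularForm.coe_translate] at h
  have hcoe : (⇑A ∣[w] (mapGL ℝ γ)) = (⇑A ∣[w] γ) := rfl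
  rw [hcoe] at h
  have hu : uParam M τ = Function.Periodic.qParam (M : ℝ) (τ : ℂ) := rfl
  refine ⟨?_, ?_⟩
  · have := h.summable.norm
    simpa [norm_mul, norm_pow, hu] using this
  · rw [slFun_eq]
    simpa [hu] using h

theorem hasExp_slFun {N M : ℕ} [NeZero M] (hNM : N ∣ M) {w : ℤ}
    (A : ModularForm (Gamma0 N) w) (γ : SL(2, ℤ)) :
    HasExp M (slFun A γ)
      (HahnSeries.ofPowerSeries ℤ Kc (UpperHalfPlane.qExpansion (M : ℝ) (⇑A ∣[w] γ))) :=
  HasExp.of_hasPExp (hasPExp_slFun hNM A γ)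


/-- The `u`-adic valuation of a nonzero power series. -/
theorem valued_ofPowerSeries {P : PowerSeries Kc} (hP : P ≠ 0) :
    (Valued.v (HahnSeries.ofPowerSeries ℤ Kc P) : WithZero (Multiplicative ℤ)) =
      WithZero.exp (-((P.order.toNat : ℕ) : ℤ)) := by
  apply laurent_valuation_eq_of_coeff
  · rw [HahnSeries.ofPowerSeries_apply_coeff]
    exact PowerSeries.coeff_order hP
  · intro n hn
    rcases lt_or_ge n 0 with h0 | h0
    · exact ModularCurve.ofPowerSeries_coeff_of_neg P h0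
    · obtain ⟨k, rfl⟩ := Int.eq_ofNat_of_zero_le h0
      rw [HahnSeries.ofPowerSeries_apply_coeff]
      exact PowerSeries.coeff_of_lt_order_toNat k (by exact_mod_cast hn)

/-- The two expansion maps on `AL M` agree. -/
theorem valInfAL_eq_valued_expAL {M : ℕ} [NeZero M]
    (hgens : ∀ f ∈ gens M, ∃ a : LaurentSeries Kc, HasExp M f a) (f : AL M) :
    valInfAL hgens f = Valued.v (EmbFHom.expAL M f) := by
  rw [valInfAL_apply, expAL_eq hgens (EmbFHom.hasExp_expAL M f)]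

theorem slFun_eq_zero_iff {N : ℕ} {w : ℤ} (A : ModularForm (Gamma0 N) w) (γ : SL(2, ℤ)) :
    slFun A γ = 0 ↔ A = 0 := by
  constructor
  · intro h
    refine ModularForm.ext fun τ => ?_
    have h1 : slFun A γ (γ⁻¹ • τ) = 0 := congrFun h (γ⁻¹ • τ : ℍ)
    rw [slFun_apply, smul_inv_smul] at h1
    have hd : (UpperHalfPlane.denom γ ((γ⁻¹ • τ : ℍ) : ℂ)) ^ (-w) ≠ 0 :=
      zpow_ne_zero _ (UpperHalfPlane.denom_ne_zero _ _)
    exact (mul_eq_zero.mp h1).resolve_right hd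
  · rintro rfl
    funext τ
    rw [slFun_apply]
    simp

theorem qExpansion_slash_ne_zero {N M : ℕ} [NeZero M] (hNM : N ∣ M) {w : ℤ}
    {A : ModularForm (Gamma0 N) w} (hA : A ≠ 0) (γ : SL(2, ℤ)) :
    UpperHalfPlane.qExpansion (M : ℝ) (⇑A ∣[w] γ) ≠ 0 := by
  intro h0
  have h1 := hasPExp_slFun hNM A γ
  rw [h0] at h1
  have h2 : HasPExp M (0 : Fun) (0 : PowerSeries Kc) := by
    have := HasPExp.const M (0 : Kc)
    simpa using this
  exact hA ((slFun_eq_zero_iff A γ).mp (h1.fun_unique h2))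

/-- **(R∞), the ratio bridge at the cusps.**  If `x = A / B` (`F3I2.IsRatio`, `A ≠ 0`) then for
all `γ ∈ SL(2,ℤ)`: `-log (valInfLL (γ • φ x)) = ord_∞ (A ∣ γ⁻¹) - ord_∞ (B ∣ γ⁻¹)` (orders in
`u_M = exp(2πiτ/M)`), for the embedding `φ = embHom N M` of `FC N` in `LL M` (`N ∣ M`). -/
theorem neg_log_valInfLL_smul_embHom {N M : ℕ} [NeZero N] [NeZero M] (hNM : N ∣ M)
    (hgens : ∀ f ∈ gens M, ∃ a : LaurentSeries Kc, HasExp M f a) (x : ↥(FC N))
    {w : ℤ} (A B : ModularForm (Gamma0 N) w) (hA : A ≠ 0) (h : F3I2.IsRatio N x A B)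
    (γ : SL(2, ℤ)) :
    -WithZero.log (valInfLL hgens (γ • EmbFHom.embHom N M hNM x)) =
      F3I2.ordInf M (⇑A ∣[w] γ⁻¹) - F3I2.ordInf M (⇑B ∣[w] γ⁻¹) := by
  obtain ⟨a, b, hb, hab⟩ := IsFractionRing.div_surjective (A := AL M) (EmbFHom.embHom N M hNM x)
  have hb0 : b ≠ 0 := nonZeroDivisors.ne_zero hb
  have hbL : algebraMap (AL M) (LL M) b ≠ 0 := by
    intro h0
    exact hb0 ((IsFractionRing.injective (AL M) (LL M)) (by rw [h0, map_zero]))
  have hx : EmbFHom.embHom N M hNM x * algebraMap (AL M) (LL M) b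
      = algebraMap (AL M) (LL M) a := by
    rw [← hab, div_mul_cancel₀ _ hbL]
  have hmul := mul_eq_mul_of_isRatio hNM x A B h a b hx
  -- the translated identity
  have key1 : slFun A γ⁻¹ * ((γ • b : AL M) : Fun) = slFun B γ⁻¹ * ((γ • a : AL M) : Fun) := by
    ext τ
    have h1 : (mfFun A * (b : Fun)) (γ⁻¹ • τ) = (mfFun B * (a : Fun)) (γ⁻¹ • τ) := by
      rw [hmul]
    rw [Fun.mul_apply, Fun.mul_apply, mfFun_apply, mfFun_apply] at h1
    rw [Fun.mul_apply, Fun.mul_apply, AL.coe_smul, AL.coe_smul, Fun.sl_smul_apply,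
      Fun.sl_smul_apply, slFun_apply, slFun_apply]
    rw [mul_right_comm, h1]
    exact mul_right_comm _ _ _
  -- expansions
  set PA := UpperHalfPlane.qExpansion (M : ℝ) (⇑A ∣[w] γ⁻¹) with hPA
  set PB := UpperHalfPlane.qExpansion (M : ℝ) (⇑B ∣[w] γ⁻¹) with hPB
  have hPA0 : PA ≠ 0 := qExpansion_slash_ne_zero hNM hA γ⁻¹
  have hPB0 : PB ≠ 0 := qExpansion_slash_ne_zero hNM h.1 γ⁻¹
  have e1 := (hasExp_slFun hNM A γ⁻¹).mul (EmbFHom.hasExp_expAL M (γ • b))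
  have e2 := (hasExp_slFun hNM B γ⁻¹).mul (EmbFHom.hasExp_expAL M (γ • a))
  rw [key1] at e1
  have key2 := e1.unique e2
  have key3 := congrArg (Valued.v : LaurentSeries Kc → WithZero (Multiplicative ℤ)) key2
  rw [map_mul, map_mul, ← hPA, ← hPB, valued_ofPowerSeries hPA0, valued_ofPowerSeries hPB0,
    ← valInfAL_eq_valued_expAL hgens, ← valInfAL_eq_valued_expAL hgens] at key3
  -- the valuation of `γ • φ x`
  have hγb : valInfAL hgens (γ • b) ≠ 0 := by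
    rw [Ne, valInfAL_eq_zero_iff]
    intro h0
    apply hb0
    have := congrArg (fun f => γ⁻¹ • f) h0
    simpa using this
  have hva : valInfAL hgens (γ • a) =
      WithZero.exp (-((PA.order.toNat : ℕ) : ℤ)) * valInfAL hgens (γ • b) /
        WithZero.exp (-((PB.order.toNat : ℕ) : ℤ)) := by
    rw [key3, mul_div_cancel_left₀ _ WithZero.exp_ne_zero]
  have hval : valInfLL hgens (γ • EmbFHom.embHom N M hNM x) =
      WithZero.exp (((PB.order.toNat : ℕ) : ℤ) - ((PA.order.toNat : ℕ) : ℤ)) := by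
    rw [← hab, smul_div₀', LL.smul_algebraMap, LL.smul_algebraMap, map_div₀,
      valInfLL_algebraMap, valInfLL_algebraMap, hva, div_div, mul_div_mul_right _ _ hγb,
      ← WithZero.exp_sub]
    congr 1
    ring
  rw [hval, WithZero.log_exp]
  show _ = ((PA.order.toNat : ℕ) : ℤ) - ((PB.order.toNat : ℕ) : ℤ)
  ring


/-- (R∞) in the argument order of the D2 plan. -/
theorem ratioCusp {N M : ℕ} [NeZero N] [NeZero M] (hNM : N ∣ M)
    (hgens : ∀ f ∈ gens M, ∃ a : LaurentSeries Kc, HasExp M f a) {w : ℤ}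
    (A B : ModularForm (Gamma0 N) w) (x : ↥(FC N)) (h : F3I2.IsRatio N x A B) (hA : A ≠ 0) :
    ∀ γ : SL(2, ℤ), -WithZero.log (valInfLL hgens (γ • EmbFHom.embHom N M hNM x)) =
      F3I2.ordInf M (⇑A ∣[w] γ⁻¹) - F3I2.ordInf M (⇑B ∣[w] γ⁻¹) :=
  fun γ => neg_log_valInfLL_smul_embHom hNM hgens x A B hA h γ

end Fermat.Agent.F3RatioCusp
end
end MergeWrap_F3_Dict_RatioCusp
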