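import Mathlib
import Fermat.Agent.MUL.F3.Dict.ChartsC
import Fermat.Agent.MUL.F3.Dict.RatioCusp
import Fermat.Agent.MUL.F3.I2.Kappa.KappaC

section MergeWrap_F3_Dict_RatioCuspFinal -- from F3/Dict/RatioCuspFinal.lean

set_option autoImplicit false
set_option linter.style.haveILetI false

noncomputable section

namespace Fermat.Agent.F3RatioCusp

open UpperHalfPlane CongruenceSubgroup Fermat.Agent.F3Dict
open scoped MatrixGroups ModularForm

/-- **(R∞)** in the shape consumed by `F3Charts.dictD2a_of`. -/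
theorem ratioCusp_charts (N : ℕ) [NeZero N] : Fermat.Agent.F3Charts.RatioCusp N := by
  haveI : NeZero (2 * N) := ⟨Nat.mul_ne_zero two_ne_zero (NeZero.ne N)⟩
  intro γ w A B x hA h
  exact neg_log_valInfLL_smul_embHom (Dvd.intro_left 2 rfl)
    (fun _ hf => exists_hasExp_of_mem_gens (2 * N) hf) x A B hA h γ

/-- **(D2a)** places → points, unconditionally. -/
theorem dictD2a (N : ℕ) [NeZero N] : Fermat.Agent.F3I2.DictD2a N :=
  Fermat.Agent.F3Charts.dictD2a_of N (ratioCusp_charts N)

end Fermat.Agent.F3RatioCusp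
end
end MergeWrap_F3_Dict_RatioCuspFinal
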